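/-
PROJECT R (S43), chief's seam file no. 3 (helper8): THE TWIST LIVES IN THE GALOIS MODULE.

The Prelude's `flatCondition` (hence NUM, RS, S56 on main) FIXES the determinant: `det = ε_p`.  The
Galois representation carried by the nebentypus Hecke algebra has `det ρ(Frob_l) = l ⟨l⟩`; the
representation of record is therefore `ρ' = ρ ⊗ ⟨·⟩^(-1/2)`.  We do NOT twist representations (this
would ask for a descent of Hopf algebras in `IsFlatAt`).  We twist the Galois MODULE, once:

* `cyc M : G_ℚ →* (ℤ/M)ˣ`, the cyclotomic character modulo `M` (main's `S56/Cheb/Galois/CycChar.chi`);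
* `twOp M m σ = ⟨cyc σ ^ m⟩_* = diamond1Bar M (cyc M σ ^ m)`, an automorphism of `J1 M` commuting
  with `G_ℚ`, with every `hecke1Bar`, and multiplicative in `σ`;
* `J1tw M m`, a copy of `J1 M` with the action `σ ⋆ y = twOp M m σ (σ • y)`  (`m = 0` : the usual one);
* `heckeTw M m r = ⟨r^m⟩_* T_r` (`r ∤ M`).

On the part of `J1tw M m` where `⟨d⟩_*^(2 m + 1) = 1` for every `d` (the `e_H`-part, `H` the prime to `p`
part of `(ℤ/M)ˣ`, `2 m + 1 ≡ 0` modulo the exponent of the `p`-part) the Eichler–Shimura relation reads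
`F'² - T'_l F' + l = 0`, THE SHAPE OF `X₀` : main's abstract machines (`S31/Core`, `S32/TransferCore`,
`S32/FlatOfTransfer.isFlatAt_of_transfer_pow`, `S34/UnipCore`, `S30/Padic/Assembly.exists_galoisRep`,
`S19/{BackEnd, ChartGlue, FrobClosure, Final}`), all generic in the module `J` and its action, apply
to `J1tw M m` as they are.  The inertia groups at the primes not dividing `M` act on `J1tw M m` as on
`J1 M` (`cyc M` is unramified there): this is why FLAT1 costs nothing more than the twin of S19.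
-/
import Fermat.Agent.S48.B.Arith.HeckeGalois1
import Fermat.Agent.S48.B.Red.Diamond1
import Fermat.Agent.S48.B.Hecke.Wire
import Fermat.Agent.S48.B.B1.Main
import Fermat.Agent.S48.B.B1.DiamondUnique
import Fermat.Agent.S56.Cheb.Galois.CycChar

set_option autoImplicit false

noncomputable section

namespace Fermat.Agent.S43.Tw.Defs

open AlgebraicCurve AlgebraicCurve.SemilinearAut ModularCurve
open Fermat.Agent.S48.B.Defs.Model

local notation "Kb" => AlgebraicClosure ℚ
local notation "GQ" => (AlgebraicClosure ℚ ≃ₐ[ℚ] AlgebraicClosure ℚ)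

variable (M : ℕ) [NeZero M]

/-- the cyclotomic character modulo `M` -/
def cyc : GQ →* (ZMod M)ˣ := Fermat.Agent.S56.Cheb.Galois.CycChar.chi M

/-- `⟨d⟩_*` is the action of the diamond automorphism `⟨d⁻¹⟩` (hypothesis-free) -/
theorem diamond1Bar_eq (d : (ZMod M)ˣ) (x : J1 M) :
    diamond1Bar M d x = ofAlgAut (diamondAut M Kb d⁻¹) • x :=
  Fermat.Agent.S48.B.Red.Diamond1.diamond1Bar_eq_smul d
    (Fermat.Agent.S48.B.Hecke.Wire.corrDiamond_of (Fermat.Agent.S48.B.B1.Main.deg1 M) d⁻¹) x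

theorem diamond1Bar_one (x : J1 M) : diamond1Bar M 1 x = x := by
  rw [diamond1Bar_eq, inv_one,
    Fermat.Agent.S48.B.B1.DiamondUnique.diamondAut_one (Fermat.Agent.S48.B.B1.Main.wpForms M)
      (Fermat.Agent.S48.B.B1.Main.repLe M)]
  have : (AlgEquiv.refl : F1Bar M ≃ₐ[Kb] F1Bar M) = 1 := rfl
  rw [this, map_one, one_smul]

theorem diamond1Bar_mul (d d' : (ZMod M)ˣ) (x : J1 M) :
    diamond1Bar M (d * d') x = diamond1Bar M d (diamond1Bar M d' x) := by
  rw [diamond1Bar_eq, diamond1Bar_eq, diamond1Bar_eq, mul_inv,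
    Fermat.Agent.S48.B.B1.DiamondUnique.diamondAut_mul (Fermat.Agent.S48.B.B1.Main.wpForms M)
      (Fermat.Agent.S48.B.B1.Main.repLe M), ← mul_smul, ← map_mul]
  rfl

theorem diamond1Bar_pow (d : (ZMod M)ˣ) (n : ℕ) (x : J1 M) :
    diamond1Bar M (d ^ n) x = ((diamond1Bar M d) ^ n) x := by
  induction n generalizing x with
  | zero => rw [pow_zero, pow_zero, diamond1Bar_one]; rfl
  | succ n ih => rw [pow_succ, pow_succ, diamond1Bar_mul, Module.End.mul_apply, ih]

theorem diamond1Bar_comm (d d' : (ZMod M)ˣ) (x : J1 M) :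
    diamond1Bar M d (diamond1Bar M d' x) = diamond1Bar M d' (diamond1Bar M d x) := by
  rw [← diamond1Bar_mul, ← diamond1Bar_mul, mul_comm]

/-- **the twisting operator** `⟨cyc σ ^ m⟩_*` -/
def twOp (m : ℕ) (σ : GQ) : Module.End ℤ (J1 M) := diamond1Bar M (cyc M σ ^ m)

theorem twOp_apply (m : ℕ) (σ : GQ) (x : J1 M) : twOp M m σ x = diamond1Bar M (cyc M σ ^ m) x :=
  rfl

theorem twOp_one (m : ℕ) (x : J1 M) : twOp M m 1 x = x := by
  rw [twOp_apply, map_one, one_pow, diamond1Bar_one]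

theorem twOp_mul (m : ℕ) (σ τ : GQ) (x : J1 M) :
    twOp M m (σ * τ) x = twOp M m σ (twOp M m τ x) := by
  rw [twOp_apply, twOp_apply, twOp_apply, map_mul, mul_pow, diamond1Bar_mul]

theorem twOp_zero (σ : GQ) (x : J1 M) : twOp M 0 σ x = x := by
  rw [twOp_apply, pow_zero, diamond1Bar_one]

/-- the twisting operators commute with the Galois action -/
theorem twOp_smul (m : ℕ) (σ τ : GQ) (x : J1 M) : twOp M m σ (τ • x) = τ • twOp M m σ x :=
  Fermat.Agent.S48.B.Arith.HeckeGalois1.diamond1Bar_smul M _ τ x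

/-- **the twisted Galois module**: a copy of `J1 M` -/
def J1tw (_m : ℕ) : Type _ := J1 M

instance (m : ℕ) : AddCommGroup (J1tw M m) := inferInstanceAs (AddCommGroup (J1 M))

/-- the identity, as an additive equivalence -/
def toTw (m : ℕ) : J1 M ≃+ J1tw M m := AddEquiv.refl _

/-- the identity, as an additive equivalence -/
def ofTw (m : ℕ) : J1tw M m ≃+ J1 M := AddEquiv.refl _

@[simp] theorem ofTw_toTw (m : ℕ) (x : J1 M) : ofTw M m (toTw M m x) = x := rfl

@[simp] theorem toTw_ofTw (m : ℕ) (y : J1tw M m) : toTw M m (ofTw M m y) = y := rfl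

/-- **the twisted action** `σ ⋆ y = ⟨cyc σ ^ m⟩_* (σ • y)` -/
instance (m : ℕ) : DistribMulAction GQ (J1tw M m) where
  smul σ y := toTw M m (twOp M m σ (σ • ofTw M m y))
  one_smul y := by
    show toTw M m (twOp M m 1 ((1 : GQ) • ofTw M m y)) = y
    rw [one_smul, twOp_one]; rfl
  mul_smul σ τ y := by
    show toTw M m (twOp M m (σ * τ) ((σ * τ) • ofTw M m y)) =
      toTw M m (twOp M m σ (σ • ofTw M m (toTw M m (twOp M m τ (τ • ofTw M m y)))))
    rw [ofTw_toTw, twOp_mul, mul_smul, twOp_smul M m τ σ]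
  smul_zero σ := by
    show toTw M m (twOp M m σ (DistribSMul.toAddMonoidHom (J1 M) σ 0)) = 0
    rw [map_zero, map_zero, map_zero]
  smul_add σ y z := by
    show toTw M m (twOp M m σ (σ • ofTw M m (y + z))) =
      toTw M m (twOp M m σ (σ • ofTw M m y)) + toTw M m (twOp M m σ (σ • ofTw M m z))
    show toTw M m (twOp M m σ (DistribSMul.toAddMonoidHom (J1 M) σ (ofTw M m (y + z)))) =
      toTw M m (twOp M m σ (DistribSMul.toAddMonoidHom (J1 M) σ (ofTw M m y))) +
        toTw M m (twOp M m σ (DistribSMul.toAddMonoidHom (J1 M) σ (ofTw M m z)))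
    rw [map_add, map_add, map_add, map_add]

theorem smul_def (m : ℕ) (σ : GQ) (y : J1tw M m) :
    σ • y = toTw M m (twOp M m σ (σ • ofTw M m y)) := rfl

theorem ofTw_smul (m : ℕ) (σ : GQ) (y : J1tw M m) :
    ofTw M m (σ • y) = twOp M m σ (σ • ofTw M m y) := rfl

/-- an element with `cyc M σ = 1` (every inertia element at a prime not dividing `M`) acts on
`J1tw M m` as on `J1 M` -/
theorem ofTw_smul_of_cyc_eq_one (m : ℕ) {σ : GQ} (hσ : cyc M σ = 1) (y : J1tw M m) :
    ofTw M m (σ • y) = σ • ofTw M m y := by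
  rw [ofTw_smul, twOp_apply, hσ, one_pow, diamond1Bar_one]

/-- for `m = 0` the module is `J1 M` -/
theorem ofTw_smul_zero (σ : GQ) (y : J1tw M 0) : ofTw M 0 (σ • y) = σ • ofTw M 0 y := by
  rw [ofTw_smul, twOp_zero]

/-- transport of an endomorphism of `J1 M` -/
def endTw (m : ℕ) (f : Module.End ℤ (J1 M)) : AddMonoid.End (J1tw M m) :=
  ((toTw M m).toAddMonoidHom.comp f.toAddMonoidHom).comp (ofTw M m).toAddMonoidHom

theorem ofTw_endTw (m : ℕ) (f : Module.End ℤ (J1 M)) (y : J1tw M m) :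
    ofTw M m (endTw M m f y) = f (ofTw M m y) := rfl

/-- the diamond operators on the twisted module -/
def diamondTw (m : ℕ) (d : (ZMod M)ˣ) : AddMonoid.End (J1tw M m) := endTw M m (diamond1Bar M d)

/-- **the twisted Hecke operator** `T'_r = ⟨r^m⟩_* T_r`, `r ∤ M` -/
def heckeTw (m : ℕ) (r : Nat.Primes) (hr : ((r : ℕ)).Coprime M) : AddMonoid.End (J1tw M m) :=
  endTw M m ((diamond1Bar M (ZMod.unitOfCoprime (r : ℕ) hr ^ m)) * hecke1Bar M r)

theorem ofTw_heckeTw (m : ℕ) (r : Nat.Primes) (hr : ((r : ℕ)).Coprime M) (y : J1tw M m) :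
    ofTw M m (heckeTw M m r hr y) =
      diamond1Bar M (ZMod.unitOfCoprime (r : ℕ) hr ^ m) (hecke1Bar M r (ofTw M m y)) := rfl

/-- the diamond operators commute with the twisted Galois action -/
theorem diamondTw_smul (m : ℕ) (d : (ZMod M)ˣ) (σ : GQ) (y : J1tw M m) :
    diamondTw M m d (σ • y) = σ • diamondTw M m d y := by
  apply (ofTw M m).injective
  rw [ofTw_smul]
  show diamond1Bar M d (twOp M m σ (σ • ofTw M m y)) = twOp M m σ (σ • diamond1Bar M d (ofTw M m y))
  rw [twOp_apply, twOp_apply, diamond1Bar_comm,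
    Fermat.Agent.S48.B.Arith.HeckeGalois1.diamond1Bar_smul]

end Fermat.Agent.S43.Tw.Defs
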